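/-
S25 package VALSEP, wiring (helper348): the frozen chart `𝒞.chart V` over a valuation ring satisfies
the hypotheses of helper2910's `nonempty_iso_of_isogeny` (closed fibre integral via helper8028's
domain lemma; `g` regular modulo scalars), and the generic isomorphism gives an isogeny by
helper2750's `exists_hom_pair`.
-/
import Fermat.Agent.S25.VALSEP.H2750.Denominators
import Fermat.Agent.S25.VALSEP.G2910.ValSepGlued
import Fermat.Agent.S25.VALSEP.H8028.DomainTensor

set_option autoImplicit false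

universe u

namespace Fermat.Agent.S25.VALSEP.W348

open Fermat.Agent.S25 GluedModule

open scoped TensorProduct

section quot

variable (k : Type u) [Field k] (V : Type u) [CommRing V] [Algebra k V]
  (A : Type u) [CommRing A] [Algebra k A]

/-- Reduction of `V ⊗[k] A` modulo an ideal `I` of `V`. -/
noncomputable def redMap (I : Ideal V) : V ⊗[k] A →ₐ[k] (V ⧸ I) ⊗[k] A :=
  Algebra.TensorProduct.map (Ideal.Quotient.mkₐ k I) (AlgHom.id k A)

theorem ker_redMap (I : Ideal V) :
    RingHom.ker (redMap k V A I) = Ideal.map (algebraMap V (V ⊗[k] A)) I := by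
  have h := Algebra.TensorProduct.rTensor_ker (R := k) (S := k) (C := A)
    (Ideal.Quotient.mkₐ k I) (Ideal.Quotient.mkₐ_surjective k I)
  have hker : RingHom.ker (Ideal.Quotient.mkₐ k I) = I := Ideal.Quotient.mkₐ_ker k I
  rw [hker] at h
  exact h

/-- `1 ⊗ g` is a non-zero-divisor on `W ⊗[k] A` when `g` is one on `A`. -/
theorem one_tmul_mul_cancel (W : Type u) [CommRing W] [Algebra k W] (g : A)
    (hg : ∀ a : A, g * a = 0 → a = 0) (x : W ⊗[k] A) (hx : ((1 : W) ⊗ₜ[k] g) * x = 0) :
    x = 0 := by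
  have e : ∀ x : W ⊗[k] A, ((1 : W) ⊗ₜ[k] g) * x = LinearMap.lTensor W (LinearMap.mulLeft k g) x := by
    intro x
    induction x using TensorProduct.induction_on with
    | zero => simp
    | tmul r a => simp [Algebra.TensorProduct.tmul_mul_tmul]
    | add x y hx hy => rw [mul_add, hx, hy, map_add]
  have hinj : Function.Injective (LinearMap.lTensor W (LinearMap.mulLeft k g)) := by
    apply Module.Flat.lTensor_preserves_injective_linearMap
    intro a b hab
    have : g * (a - b) = 0 := by
      rw [mul_sub]; exact sub_eq_zero.2 hab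
    exact sub_eq_zero.1 (hg _ this)
  apply hinj
  rw [← e, hx, map_zero]

/-- `1 ⊗ g` is regular modulo every scalar of `V` on `V ⊗[k] A`. -/
theorem tmul_regular_mod (b : V) (g : A) (hg : ∀ a : A, g * a = 0 → a = 0)
    (y z : V ⊗[k] A) (h : ((1 : V) ⊗ₜ[k] g) * y = b • z) :
    ∃ w : V ⊗[k] A, y = b • w := by
  have hk := ker_redMap k V A (Ideal.span ({b} : Set V))
  have hy : redMap k V A (Ideal.span ({b} : Set V)) y = 0 := by
    apply one_tmul_mul_cancel k A (V ⧸ Ideal.span ({b} : Set V)) g hg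
    have h2 : redMap k V A (Ideal.span ({b} : Set V)) (((1 : V) ⊗ₜ[k] g) * y) =
        ((1 : V ⧸ Ideal.span ({b} : Set V)) ⊗ₜ[k] g) *
          redMap k V A (Ideal.span ({b} : Set V)) y := by
      rw [map_mul]
      rfl
    rw [← h2, h]
    have h3 : b • z ∈ RingHom.ker (redMap k V A (Ideal.span ({b} : Set V))) := by
      rw [hk, Algebra.smul_def]
      exact Ideal.mul_mem_right _ _
        (Ideal.mem_map_of_mem _ (Ideal.mem_span_singleton_self b))
    exact h3
  have hy' : y ∈ Ideal.map (algebraMap V (V ⊗[k] A)) (Ideal.span ({b} : Set V)) := by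
    rw [← hk]; exact hy
  rw [Ideal.map_span, Set.image_singleton, Ideal.mem_span_singleton'] at hy'
  obtain ⟨w, hw⟩ := hy'
  refine ⟨w, ?_⟩
  rw [Algebra.smul_def, mul_comm]
  exact hw.symm

end quot

section chart

variable {k : Type u} [Field k] [IsAlgClosed k] (𝒞 : CurveData k)
  (V : Type u) [CommRing V] [IsDomain V] [ValuationRing V] [Algebra k V]

theorem g_ne_zero : 𝒞.g ≠ 0 := by
  intro h
  have h1 := 𝒞.fg
  rw [h, map_zero, mul_zero] at h1
  have h2 : (1 : 𝒞.A₁) = 0 := by
    apply 𝒞.inj₁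
    rw [map_one, map_zero]; exact h1.symm
  have hd := 𝒞.dom₁
  exact one_ne_zero h2

/-- The closed fibre of the first chart is integral. -/
theorem chart_prime :
    (Ideal.map (algebraMap V (𝒞.chart V).B₁) (IsLocalRing.maximalIdeal V)).IsPrime := by
  have hd := 𝒞.dom₁
  have : IsDomain ((V ⧸ IsLocalRing.maximalIdeal V) ⊗[k] 𝒞.A₁) := H8028.isDomain_tensor
  have h := ker_redMap k V 𝒞.A₁ (IsLocalRing.maximalIdeal V)
  change (Ideal.map (algebraMap V (V ⊗[k] 𝒞.A₁)) (IsLocalRing.maximalIdeal V)).IsPrime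
  rw [← h]
  exact RingHom.ker_isPrime _

/-- `g` is regular modulo every scalar on the second chart. -/
theorem chart_g_regular (b : V) (y z : (𝒞.chart V).B₂) (h : (𝒞.chart V).g * y = b • z) :
    ∃ w : (𝒞.chart V).B₂, y = b • w := by
  have hd := 𝒞.dom₂
  exact tmul_regular_mod k V 𝒞.A₂ b 𝒞.g
    (fun a ha => (mul_eq_zero.1 ha).resolve_left (g_ne_zero 𝒞)) y z h

end chart

section main

variable {k : Type u} [Field k] [IsAlgClosed k] (𝒞 : CurveData k)

/-- Morphisms in the vocabulary of `G2910` from morphisms in the vocabulary of `A1/Basic`. -/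
def morOfHom {R : Type u} [CommRing R] {𝔹 : TwoChart R} {N N' : GluedModule 𝔹}
    (α : GluedModule.Hom N N') : G2910.Mor N N' where
  m₁ := α.φ₁
  m₂ := α.φ₂
  m₁₂ := α.φ₁₂
  comm₁ := α.comm₁
  comm₂ := α.comm₂

/-- Valuative separatedness for line bundles on the frozen chart (only `IsLineBundle` needed). -/
theorem valSep (V : Type u) [CommRing V] [IsDomain V] [ValuationRing V]
    [Algebra k V] (K : Type u) [Field K] [Algebra V K] [IsFractionRing V K] [Algebra k K]
    [IsScalarTower k V K] (L L' : GluedModule (𝒞.chart V)) (hL : L.IsLineBundle)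
    (hL' : L'.IsLineBundle) (M M' : GluedModule (𝒞.chart K))
    (hM : IsBC (𝒞.chartHom (IsScalarTower.toAlgHom k V K)) L M)
    (hM' : IsBC (𝒞.chartHom (IsScalarTower.toAlgHom k V K)) L' M')
    (e : Nonempty (M.Iso M')) : Nonempty (L.Iso L') := by
  obtain ⟨c, s, t, hc, h1, h2, h3, h4⟩ := H2750.exists_hom_pair 𝒞 L L' hL hL' M M' hM hM' e
  have : Module.Free V (𝒞.chart V).B₁ := by
    change Module.Free V (V ⊗[k] 𝒞.A₁)
    infer_instance
  have : Module.Free V (𝒞.chart V).B₂ := by
    change Module.Free V (V ⊗[k] 𝒞.A₂)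
    infer_instance
  exact G2910.nonempty_iso_of_isogeny hL hL' (chart_prime 𝒞 V) (chart_g_regular 𝒞 V)
    (morOfHom s) (morOfHom t) c hc h1 h3 h2 h4

end main

end Fermat.Agent.S25.VALSEP.W348
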